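import Fermat.Agent.S27.H267.GenusChart

/-!
# Row S27, leaf GENUS (helper267): main theorem

`genusFF_eq_finrank_H1_unit` : for a curve chart `(B₀, B₁, B₀₁, x, y, e)` over an algebraically
closed field `K` with compatible maps `j₀, j₁, j₀₁` to `F`, `j₀₁` injective, `F = Frac (j₀₁ B₀₁)`:

  `genusFF K F = finrank K (GlueDatum.unit K (K ⊗ B₀) (K ⊗ B₁) (K ⊗ B₀₁)).H1`,

together with the explicit `K`-linear equivalence `h1Equiv`.
-/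

set_option autoImplicit false
set_option linter.style.haveILetI false
set_option linter.unusedSectionVars false

noncomputable section

open AlgebraicCurve IsDedekindDomain
open scoped TensorProduct

namespace Fermat.Agent.S27.H267

open Fermat.Agent.S25

universe u v

section Main

variable {K : Type u} [Field K] [IsAlgClosed K] {F : Type v} [Field F] [Algebra K F]
  {B₀ B₁ B₀₁ : Type u} [CommRing B₀] [CommRing B₁] [CommRing B₀₁]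
  [Algebra K B₀] [Algebra K B₁] [Algebra K B₀₁] [Algebra B₀ B₀₁] [Algebra B₁ B₀₁]
  [IsScalarTower K B₀ B₀₁] [IsScalarTower K B₁ B₀₁]
  {x : B₀} {y : B₁} {e : B₁ →ₐ[K] K}

/-- `K ⊗ B → B → F`. -/
def toF {B : Type u} [CommRing B] [Algebra K B] (j : B →ₐ[K] F) : (K ⊗[K] B) →ₗ[K] F :=
  j.toLinearMap ∘ₗ (TensorProduct.lid K B).toLinearMap

theorem toF_tmul {B : Type u} [CommRing B] [Algebra K B] (j : B →ₐ[K] F) (c : K) (b : B) :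
    toF j (c ⊗ₜ[K] b) = c • j b := by
  simp [toF]

theorem toF_one_tmul {B : Type u} [CommRing B] [Algebra K B] (j : B →ₐ[K] F) (b : B) :
    toF j ((1 : K) ⊗ₜ[K] b) = j b := by
  rw [toF_tmul, one_smul]

theorem toF_injective {B : Type u} [CommRing B] [Algebra K B] (j : B →ₐ[K] F)
    (hj : Function.Injective j) : Function.Injective (toF j) := by
  intro a b h
  apply (TensorProduct.lid K B).injective
  apply hj
  exact h

variable (j₀ : B₀ →ₐ[K] F) (j₁ : B₁ →ₐ[K] F) (j₀₁ : B₀₁ →ₐ[K] F)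
  (comp₀ : ∀ b : B₀, j₀₁ (algebraMap B₀ B₀₁ b) = j₀ b)
  (comp₁ : ∀ b : B₁, j₀₁ (algebraMap B₁ B₀₁ b) = j₁ b)

include comp₀ in
theorem toF_algebraMap₀ (a : K ⊗[K] B₀) :
    toF j₀₁ (algebraMap (K ⊗[K] B₀) (K ⊗[K] B₀₁) a) = toF j₀ a := by
  induction a using TensorProduct.induction_on with
  | zero => simp
  | tmul c b =>
    have h : algebraMap (K ⊗[K] B₀) (K ⊗[K] B₀₁) (c ⊗ₜ[K] b) =
        c ⊗ₜ[K] algebraMap B₀ B₀₁ b := by
      show tensorMapRight K K B₀ B₀₁ (c ⊗ₜ[K] b) = _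
      simp [tensorMapRight]
    rw [h, toF_tmul, toF_tmul, comp₀]
  | add a b ha hb => rw [map_add, map_add, map_add, ha, hb]

include comp₁ in
theorem toF_algebraMap₁ (a : K ⊗[K] B₁) :
    toF j₀₁ (algebraMap (K ⊗[K] B₁) (K ⊗[K] B₀₁) a) = toF j₁ a := by
  induction a using TensorProduct.induction_on with
  | zero => simp
  | tmul c b =>
    have h : algebraMap (K ⊗[K] B₁) (K ⊗[K] B₀₁) (c ⊗ₜ[K] b) =
        c ⊗ₜ[K] algebraMap B₁ B₀₁ b := by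
      show tensorMapRight K K B₁ B₀₁ (c ⊗ₜ[K] b) = _
      simp [tensorMapRight]
    rw [h, toF_tmul, toF_tmul, comp₁]
  | add a b ha hb => rw [map_add, map_add, map_add, ha, hb]

theorem cech_unit_apply (a : K ⊗[K] B₀) (b : K ⊗[K] B₁) :
    (GlueDatum.unit K (K ⊗[K] B₀) (K ⊗[K] B₁) (K ⊗[K] B₀₁)).cech (a, b) =
      algebraMap (K ⊗[K] B₀) (K ⊗[K] B₀₁) a - algebraMap (K ⊗[K] B₁) (K ⊗[K] B₀₁) b := by
  show algebraMap (K ⊗[K] B₀) (K ⊗[K] B₀₁) a + -(algebraMap (K ⊗[K] B₁) (K ⊗[K] B₀₁) b) = _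
  rw [sub_eq_add_neg]

theorem range_toF {B : Type u} [CommRing B] [Algebra K B] (j : B →ₐ[K] F) {f : F}
    (hf : f ∈ Set.range j) : ∃ t : K ⊗[K] B, toF j t = f := by
  obtain ⟨b, rfl⟩ := hf
  exact ⟨(1 : K) ⊗ₜ[K] b, toF_one_tmul j b⟩

theorem toF_mem_chartPlaces {B : Type u} [CommRing B] [Algebra K B] (j : B →ₐ[K] F)
    (t : K ⊗[K] B) (v : Place K F) (hv : v ∈ chartPlaces (K := K) j.toRingHom) :
    toF j t ∈ v.toValuationSubring := by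
  have : toF j t = j (TensorProduct.lid K B t) := rfl
  rw [this]
  exact hv _

variable (hC : IsCurveChart K B₀ B₁ B₀₁ x y e)
  (hinj : Function.Injective j₀₁)
  (hfrac : ∀ f : F, ∃ a b : B₀₁, j₀₁ b ≠ 0 ∧ f * j₀₁ b = j₀₁ a)

include hC comp₀ comp₁ hinj hfrac

/-- The map `K ⊗ B₀₁ → H¹(0)`, `f ↦ [f · 1_Z]`, `Z` the complement of the first chart. -/
def bigPsi : (K ⊗[K] B₀₁) →ₗ[K] H1 (0 : Divisor K F) :=
  (psi (chartPlaces (K := K) j₀.toRingHom)ᶜ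
    (finite_compl_chart₀ hC j₀ j₁ j₀₁ comp₀ comp₁ hinj hfrac)) ∘ₗ toF j₀₁

theorem bigPsi_apply (t : K ⊗[K] B₀₁) :
    bigPsi j₀ j₁ j₀₁ comp₀ comp₁ hC hinj hfrac t =
      psi (chartPlaces (K := K) j₀.toRingHom)ᶜ
        (finite_compl_chart₀ hC j₀ j₁ j₀₁ comp₀ comp₁ hinj hfrac) (toF j₀₁ t) := rfl

theorem bigPsi_surjective :
    Function.Surjective (bigPsi j₀ j₁ j₀₁ comp₀ comp₁ hC hinj hfrac) := by
  haveI := H207.isDedekindDomain_chart₀ hC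
  haveI := H207.isDedekindDomain_chart₁ hC
  haveI := H207.isDedekindDomain_chart₀₁ hC
  intro ξ
  obtain ⟨g, hg, hgξ⟩ := psi_surjective (chartPlaces (K := K) j₀.toRingHom)
    (chartPlaces (K := K) j₁.toRingHom) (chart_union hC j₀ j₁ j₀₁ comp₀ comp₁)
    (finite_compl_chart₀ hC j₀ j₁ j₀₁ comp₀ comp₁ hinj hfrac)
    (finite_poles hC j₀ j₁ j₀₁ comp₀ comp₁ hinj hfrac)
    (partialFractions j₀ (j₀_injective hC j₀ j₁ j₀₁ comp₀ comp₁ hinj)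
      (frac₀ hC j₀ j₁ j₀₁ comp₀ comp₁ hinj hfrac))
    (partialFractions j₁ (j₁_injective hC j₀ j₁ j₀₁ comp₀ comp₁ hinj)
      (frac₁ hC j₀ j₁ j₀₁ comp₀ comp₁ hinj hfrac)) ξ
  have hg' : g ∈ Set.range j₀₁ := by
    apply mem_range_of_regular j₀₁ hinj hfrac
    rw [chartPlaces₀₁ hC j₀ j₁ j₀₁ comp₀ comp₁ hinj hfrac]
    exact hg
  obtain ⟨t, ht⟩ := range_toF j₀₁ hg'
  refine ⟨t, ?_⟩
  rw [bigPsi_apply, ht, hgξ]

theorem bigPsi_eq_zero_iff (t : K ⊗[K] B₀₁) :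
    bigPsi j₀ j₁ j₀₁ comp₀ comp₁ hC hinj hfrac t = 0 ↔
      ∃ (s₀ : K ⊗[K] B₀) (s₁ : K ⊗[K] B₁),
        algebraMap (K ⊗[K] B₀) (K ⊗[K] B₀₁) s₀ -
          algebraMap (K ⊗[K] B₁) (K ⊗[K] B₀₁) s₁ = t := by
  haveI := H207.isDedekindDomain_chart₀ hC
  haveI := H207.isDedekindDomain_chart₁ hC
  haveI := H207.isDedekindDomain_chart₀₁ hC
  have hreg : ∀ v ∈ chartPlaces (K := K) j₀.toRingHom ∩
      chartPlaces (K := K) j₁.toRingHom, toF j₀₁ t ∈ v.toValuationSubring := by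
    intro v hv
    rw [← chartPlaces₀₁ hC j₀ j₁ j₀₁ comp₀ comp₁ hinj hfrac] at hv
    exact toF_mem_chartPlaces j₀₁ t v hv
  rw [bigPsi_apply, psi_eq_zero_iff (chartPlaces (K := K) j₀.toRingHom)
    (chartPlaces (K := K) j₁.toRingHom) (chart_union hC j₀ j₁ j₀₁ comp₀ comp₁)
    (finite_compl_chart₀ hC j₀ j₁ j₀₁ comp₀ comp₁ hinj hfrac) hreg]
  constructor
  · rintro ⟨a, b, ha, hb, hab⟩
    obtain ⟨s₀, hs₀⟩ := range_toF j₀ (mem_range_of_regular j₀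
      (j₀_injective hC j₀ j₁ j₀₁ comp₀ comp₁ hinj)
      (frac₀ hC j₀ j₁ j₀₁ comp₀ comp₁ hinj hfrac) ha)
    obtain ⟨s₁, hs₁⟩ := range_toF j₁ (mem_range_of_regular j₁
      (j₁_injective hC j₀ j₁ j₀₁ comp₀ comp₁ hinj)
      (frac₁ hC j₀ j₁ j₀₁ comp₀ comp₁ hinj hfrac) hb)
    refine ⟨s₀, -s₁, ?_⟩
    apply toF_injective j₀₁ hinj
    rw [map_sub, toF_algebraMap₀ j₀ j₀₁ comp₀, toF_algebraMap₁ j₁ j₀₁ comp₁,
      map_neg, sub_neg_eq_add, hs₀, hs₁, hab]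
  · rintro ⟨s₀, s₁, rfl⟩
    refine ⟨toF j₀ s₀, -toF j₁ s₁, fun v hv => toF_mem_chartPlaces j₀ s₀ v hv,
      fun v hv => neg_mem (toF_mem_chartPlaces j₁ s₁ v hv), ?_⟩
    rw [map_sub, toF_algebraMap₀ j₀ j₀₁ comp₀, toF_algebraMap₁ j₁ j₀₁ comp₁,
      sub_eq_add_neg]

theorem ker_bigPsi :
    LinearMap.ker (bigPsi j₀ j₁ j₀₁ comp₀ comp₁ hC hinj hfrac) =
      LinearMap.range (GlueDatum.unit K (K ⊗[K] B₀) (K ⊗[K] B₁) (K ⊗[K] B₀₁)).cech := by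
  apply le_antisymm
  · intro t ht
    obtain ⟨s₀, s₁, h⟩ := (bigPsi_eq_zero_iff j₀ j₁ j₀₁ comp₀ comp₁ hC hinj hfrac t).mp ht
    exact ⟨(s₀, s₁), (cech_unit_apply s₀ s₁).trans h⟩
  · rintro t ⟨⟨s₀, s₁⟩, h⟩
    exact (bigPsi_eq_zero_iff j₀ j₁ j₀₁ comp₀ comp₁ hC hinj hfrac t).mpr
      ⟨s₀, s₁, (cech_unit_apply s₀ s₁).symm.trans h⟩

/-- **GENUS**: Čech `Ȟ¹(O)` of the chart is Weil's `H¹(0) = 𝔸/(𝔸(0) + F)`. -/
def h1Equiv :
    (GlueDatum.unit K (K ⊗[K] B₀) (K ⊗[K] B₁) (K ⊗[K] B₀₁)).H1 ≃ₗ[K] H1 (0 : Divisor K F) :=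
  (Submodule.quotEquivOfEq _ _ (ker_bigPsi j₀ j₁ j₀₁ comp₀ comp₁ hC hinj hfrac).symm).trans
    ((bigPsi j₀ j₁ j₀₁ comp₀ comp₁ hC hinj hfrac).quotKerEquivOfSurjective
      (bigPsi_surjective j₀ j₁ j₀₁ comp₀ comp₁ hC hinj hfrac))

/-- **GENUS**: the genus of the function field is `dim_K Ȟ¹(O)` of any of its curve charts. -/
theorem genusFF_eq_finrank_H1_unit :
    genusFF K F =
      Module.finrank K (GlueDatum.unit K (K ⊗[K] B₀) (K ⊗[K] B₁) (K ⊗[K] B₀₁)).H1 := by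
  unfold genusFF
  exact (h1Equiv j₀ j₁ j₀₁ comp₀ comp₁ hC hinj hfrac).finrank_eq.symm

end Main

end Fermat.Agent.S27.H267
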