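import Fermat.Agent.S27.Spec
import Fermat.Agent.S27.H267.GenusMain

/-!
# Row S27, leaf GENUS (helper267): hand-in

`genus K F : Stmt.Genus K F` (exact Prop of `Fermat/Agent/S27/Spec.lean`): for every curve model
`M` of the function field `F`, `genusFF K F = chartGenus M.Ch`.

Proof (`GenusCore`, `GenusDedekind`, `GenusChart`, `GenusMain`): the places of `F/K` are the
maximal ideals of the two Dedekind charts; Weil's `𝔸/(𝔸(0) + F)` is identified with the Čech
`B₀₁/(B₀ + B₁)` by partial fractions.  No Riemann–Roch, no `IsCurveOver` needed.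
-/

set_option autoImplicit false

noncomputable section

open AlgebraicCurve
open scoped TensorProduct

namespace Fermat.Agent.S27.H267

open Fermat.Agent.S25 Fermat.Agent.S27

universe u

/-- **GENUS** for a curve model, without `IsCurveOver`. -/
theorem genusFF_eq_chartGenus {K F : Type u} [Field K] [Field F] [Algebra K F] [IsAlgClosed K]
    (M : CurveModel K F) : genusFF K F = chartGenus M.Ch :=
  genusFF_eq_finrank_H1_unit M.j₀ M.j₁ M.j₀₁ M.j₀₁_algebraMap₀ M.j₀₁_algebraMap₁
    M.Ch.isCurveChart M.isFracMap.1 M.isFracMap.2

/-- **GENUS** (leaf of row S27, exact Prop). -/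
theorem genus (K F : Type u) [Field K] [Field F] [Algebra K F] : Stmt.Genus K F :=
  fun {_} {_} M => genusFF_eq_chartGenus M

end Fermat.Agent.S27.H267
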