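import Fermat.Agent.S27.H267.GenusDedekind
import Fermat.Agent.S25.H207.ChartCor

/-!
# Row S27, leaf GENUS (helper267): the genus of a function field is `dim Ȟ¹(O)` of a chart

`(B₀, B₁, B₀₁, x, y, e)` a curve chart over an algebraically closed field `K` (row S25,
`IsCurveChart`), `j₀, j₁, j₀₁` compatible `K`-algebra maps to a field `F` with `j₀₁` injective
and `F = Frac (j₀₁ B₀₁)`.  Then

  `genusFF K F = finrank K (GlueDatum.unit K (K ⊗ B₀) (K ⊗ B₁) (K ⊗ B₀₁)).H1`.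

Proof: the places of `F/K` are the maximal ideals of `B₀` and of `B₁` (valuative criterion from
the finiteness of `x`, `y`), and `GenusCore` identifies Weil's `𝔸/(𝔸(0) + F)` with
`B₀₁/(B₀ + B₁)` by partial fractions on the two Dedekind charts.  No Riemann–Roch is used.
-/

set_option autoImplicit false
set_option linter.style.haveILetI false
set_option linter.unusedSectionVars false

noncomputable section

open AlgebraicCurve IsDedekindDomain
open scoped TensorProduct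

namespace Fermat.Agent.S27.H267

open Fermat.Agent.S25

universe u v

/-! ## Integrality and valuation rings -/

section Integral

variable {K : Type u} [Field K] {F : Type v} [Field F] [Algebra K F]

/-- If `z ∈ B` generates a finite `K[z]`-algebra `B` and a place contains `j z`, it contains
`j B`. -/
theorem mem_chartPlaces_of_mem {B : Type u} [CommRing B] [Algebra K B] (z : B)
    (hfin : (Polynomial.aeval z : Polynomial K →ₐ[K] B).Finite) (j : B →ₐ[K] F)
    (v : Place K F) (hz : j z ∈ v.toValuationSubring) :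
    v ∈ chartPlaces (K := K) j.toRingHom := by
  intro b
  letI : Algebra (Polynomial K) B := (Polynomial.aeval z : Polynomial K →ₐ[K] B).toRingHom.toAlgebra
  have hint : IsIntegral (Polynomial K) b :=
    (RingHom.Finite.to_isIntegral (f := (Polynomial.aeval z : Polynomial K →ₐ[K] B).toRingHom)
      hfin) b
  let g : Polynomial K →+* v.toValuationSubring :=
    (Polynomial.aeval (⟨j z, hz⟩ : v.toValuationSubring) :
      Polynomial K →ₐ[K] v.toValuationSubring).toRingHom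
  have hcomp : (algebraMap v.toValuationSubring F).comp g =
      j.toRingHom.comp (algebraMap (Polynomial K) B) := by
    apply Polynomial.ringHom_ext
    · intro c
      show algebraMap v.toValuationSubring F
          ((Polynomial.aeval (⟨j z, hz⟩ : v.toValuationSubring)) (Polynomial.C c)) =
        j ((Polynomial.aeval z) (Polynomial.C c))
      rw [Polynomial.aeval_C, Polynomial.aeval_C, AlgHom.commutes]
      rfl
    · show algebraMap v.toValuationSubring F
          ((Polynomial.aeval (⟨j z, hz⟩ : v.toValuationSubring)) Polynomial.X) =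
        j ((Polynomial.aeval z) Polynomial.X)
      rw [Polynomial.aeval_X, Polynomial.aeval_X]
      rfl
  have h2 : IsIntegral v.toValuationSubring (j.toRingHom b) :=
    IsIntegral.map_of_comp_eq g j.toRingHom hcomp hint
  obtain ⟨a, ha⟩ := (IsIntegrallyClosed.isIntegral_iff (R := v.toValuationSubring) (K := F)).mp h2
  rw [← ha]
  exact a.2

end Integral

/-! ## The chart -/

section Chart

variable {K : Type u} [Field K] [IsAlgClosed K] {F : Type v} [Field F] [Algebra K F]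
  {B₀ B₁ B₀₁ : Type u} [CommRing B₀] [CommRing B₁] [CommRing B₀₁]
  [Algebra K B₀] [Algebra K B₁] [Algebra K B₀₁] [Algebra B₀ B₀₁] [Algebra B₁ B₀₁]
  [IsScalarTower K B₀ B₀₁] [IsScalarTower K B₁ B₀₁]
  {x : B₀} {y : B₁} {e : B₁ →ₐ[K] K}
  (hC : IsCurveChart K B₀ B₁ B₀₁ x y e)
  (j₀ : B₀ →ₐ[K] F) (j₁ : B₁ →ₐ[K] F) (j₀₁ : B₀₁ →ₐ[K] F)
  (comp₀ : ∀ b : B₀, j₀₁ (algebraMap B₀ B₀₁ b) = j₀ b)
  (comp₁ : ∀ b : B₁, j₀₁ (algebraMap B₁ B₀₁ b) = j₁ b)
  (hinj : Function.Injective j₀₁)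
  (hfrac : ∀ f : F, ∃ a b : B₀₁, j₀₁ b ≠ 0 ∧ f * j₀₁ b = j₀₁ a)

include hC comp₀ comp₁

theorem jx_mul_jy : j₀ x * j₁ y = 1 := by
  rw [← comp₀, ← comp₁, ← map_mul, hC.mul_eq_one, map_one]

theorem jx_ne_zero : j₀ x ≠ 0 := fun h => by
  have := jx_mul_jy hC j₀ j₁ j₀₁ comp₀ comp₁
  rw [h, zero_mul] at this
  exact zero_ne_one this

theorem jy_ne_zero : j₁ y ≠ 0 := fun h => by
  have := jx_mul_jy hC j₀ j₁ j₀₁ comp₀ comp₁
  rw [h, mul_zero] at this
  exact zero_ne_one this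

theorem jy_eq_inv : j₁ y = (j₀ x)⁻¹ :=
  eq_inv_of_mul_eq_one_right (jx_mul_jy hC j₀ j₁ j₀₁ comp₀ comp₁)

/-- Valuative criterion: every place lies on one of the two charts. -/
theorem mem_chart₀_or_mem_chart₁ (v : Place K F) :
    v ∈ chartPlaces (K := K) j₀.toRingHom ∨ v ∈ chartPlaces (K := K) j₁.toRingHom := by
  rcases v.toValuationSubring.mem_or_inv_mem (j₀ x) with h | h
  · exact Or.inl (mem_chartPlaces_of_mem x hC.finite₀ j₀ v h)
  · refine Or.inr (mem_chartPlaces_of_mem y hC.finite₁ j₁ v ?_)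
    rw [jy_eq_inv hC j₀ j₁ j₀₁ comp₀ comp₁]
    exact h

theorem chart_union :
    chartPlaces (K := K) j₀.toRingHom ∪ chartPlaces (K := K) j₁.toRingHom = Set.univ :=
  Set.eq_univ_of_forall fun v => mem_chart₀_or_mem_chart₁ hC j₀ j₁ j₀₁ comp₀ comp₁ v

include hinj

theorem j₀_injective : Function.Injective j₀ := by
  intro a b h
  apply H207.injective_algebraMap_chart₀ hC
  apply hinj
  rw [comp₀, comp₀, h]

theorem j₁_injective : Function.Injective j₁ := by
  intro a b h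
  apply H207.injective_algebraMap_chart₁ hC
  apply hinj
  rw [comp₁, comp₁, h]

include hfrac

theorem frac₀ (f : F) : ∃ a b : B₀, j₀ b ≠ 0 ∧ f * j₀ b = j₀ a := by
  haveI := hC.away₀
  obtain ⟨a, b, hb, hab⟩ := hfrac f
  obtain ⟨n, a₀, ha₀⟩ := IsLocalization.Away.surj x a
  obtain ⟨m, b₀, hb₀⟩ := IsLocalization.Away.surj x b
  have hx := jx_ne_zero hC j₀ j₁ j₀₁ comp₀ comp₁
  have ha' : j₀₁ a * j₀ x ^ n = j₀ a₀ := by
    rw [← comp₀ a₀, ← ha₀, map_mul, map_pow, comp₀]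
  have hb' : j₀₁ b * j₀ x ^ m = j₀ b₀ := by
    rw [← comp₀ b₀, ← hb₀, map_mul, map_pow, comp₀]
  refine ⟨a₀ * x ^ m, b₀ * x ^ n, ?_, ?_⟩
  · rw [map_mul, map_pow, ← hb']
    exact mul_ne_zero (mul_ne_zero hb (pow_ne_zero _ hx)) (pow_ne_zero _ hx)
  · rw [map_mul, map_pow, map_mul, map_pow, ← hb', ← ha']
    calc f * (j₀₁ b * j₀ x ^ m * j₀ x ^ n) = f * j₀₁ b * j₀ x ^ m * j₀ x ^ n := by ring
      _ = j₀₁ a * j₀ x ^ n * j₀ x ^ m := by rw [hab]; ring

theorem frac₁ (f : F) : ∃ a b : B₁, j₁ b ≠ 0 ∧ f * j₁ b = j₁ a := by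
  haveI := hC.away₁
  obtain ⟨a, b, hb, hab⟩ := hfrac f
  obtain ⟨n, a₀, ha₀⟩ := IsLocalization.Away.surj y a
  obtain ⟨m, b₀, hb₀⟩ := IsLocalization.Away.surj y b
  have hy := jy_ne_zero hC j₀ j₁ j₀₁ comp₀ comp₁
  have ha' : j₀₁ a * j₁ y ^ n = j₁ a₀ := by
    rw [← comp₁ a₀, ← ha₀, map_mul, map_pow, comp₁]
  have hb' : j₀₁ b * j₁ y ^ m = j₁ b₀ := by
    rw [← comp₁ b₀, ← hb₀, map_mul, map_pow, comp₁]
  refine ⟨a₀ * y ^ m, b₀ * y ^ n, ?_, ?_⟩
  · rw [map_mul, map_pow, ← hb']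
    exact mul_ne_zero (mul_ne_zero hb (pow_ne_zero _ hy)) (pow_ne_zero _ hy)
  · rw [map_mul, map_pow, map_mul, map_pow, ← hb', ← ha']
    calc f * (j₀₁ b * j₁ y ^ m * j₁ y ^ n) = f * j₀₁ b * j₁ y ^ m * j₁ y ^ n := by ring
      _ = j₀₁ a * j₁ y ^ n * j₁ y ^ m := by rw [hab]; ring

/-- The complement of the first chart is finite. -/
theorem finite_compl_chart₀ : ((chartPlaces (K := K) j₀.toRingHom)ᶜ : Set (Place K F)).Finite := by
  haveI := H207.isDedekindDomain_chart₁ hC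
  refine (finite_poles_chartPlaces j₁ (j₁_injective hC j₀ j₁ j₀₁ comp₀ comp₁ hinj)
    (frac₁ hC j₀ j₁ j₀₁ comp₀ comp₁ hinj hfrac) (j₀ x)).subset ?_
  intro v hv
  have hx : j₀ x ∉ v.toValuationSubring := fun h =>
    hv (mem_chartPlaces_of_mem x hC.finite₀ j₀ v h)
  refine ⟨?_, hx⟩
  exact (mem_chart₀_or_mem_chart₁ hC j₀ j₁ j₀₁ comp₀ comp₁ v).resolve_left hv

/-- Every function has finitely many poles. -/
theorem finite_poles (f : F) : {v : Place K F | f ∉ v.toValuationSubring}.Finite := by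
  haveI := H207.isDedekindDomain_chart₀ hC
  refine ((finite_poles_chartPlaces j₀ (j₀_injective hC j₀ j₁ j₀₁ comp₀ comp₁ hinj)
    (frac₀ hC j₀ j₁ j₀₁ comp₀ comp₁ hinj hfrac) f).union
    (finite_compl_chart₀ hC j₀ j₁ j₀₁ comp₀ comp₁ hinj hfrac)).subset ?_
  intro v hv
  by_cases h0 : v ∈ chartPlaces (K := K) j₀.toRingHom
  · exact Or.inl ⟨h0, hv⟩
  · exact Or.inr h0

/-- The places of the intersection chart. -/
theorem chartPlaces₀₁ :
    chartPlaces (K := K) j₀₁.toRingHom =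
      chartPlaces (K := K) j₀.toRingHom ∩ chartPlaces (K := K) j₁.toRingHom := by
  haveI := hC.away₀
  ext v
  constructor
  · intro hv
    exact ⟨fun b => by rw [AlgHom.toRingHom_eq_coe, RingHom.coe_coe, ← comp₀]; exact hv _,
      fun b => by rw [AlgHom.toRingHom_eq_coe, RingHom.coe_coe, ← comp₁]; exact hv _⟩
  · rintro ⟨h0, h1⟩ b
    obtain ⟨n, b₀, hb₀⟩ := IsLocalization.Away.surj x b
    have hx := jx_ne_zero hC j₀ j₁ j₀₁ comp₀ comp₁
    have hb' : j₀₁ b * j₀ x ^ n = j₀ b₀ := by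
      rw [← comp₀ b₀, ← hb₀, map_mul, map_pow, comp₀]
    have hb'' : j₀₁ b = j₀ b₀ * j₁ y ^ n := by
      rw [jy_eq_inv hC j₀ j₁ j₀₁ comp₀ comp₁, ← hb', inv_pow, mul_assoc,
        mul_inv_cancel₀ (pow_ne_zero _ hx), mul_one]
    show j₀₁ b ∈ v.toValuationSubring
    rw [hb'']
    exact mul_mem (h0 b₀) (pow_mem (h1 y) n)

end Chart

end Fermat.Agent.S27.H267
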