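import Fermat.Agent.Lib.RR.Approx
import Fermat.Agent.Lib.RR.H653.MemRepartitions

/-!
# Row S27, leaf GENUS (helper267): the abstract core

Language: the Prelude's `Place`, `repartitions`, `H1`.  For a finite set `Z` of places,
`psi Z : F →ₗ[K] H¹(0)`, `f ↦ [f · 1_Z]`.  If the places are covered by two sets `U₀`, `U₁` with
`Z = U₀ᶜ` finite, every function has finitely many poles, and partial fractions exist on `U₀`
and on `U₁`, then

* `psi Z` restricted to the functions regular on `U₀ ∩ U₁` is onto `H¹(0)`;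
* for `f` regular on `U₀ ∩ U₁`: `psi Z f = 0` iff `f = a + b` with `a` regular on `U₀`, `b`
  regular on `U₁`.

So `H¹(0) = 𝔸 / (𝔸(0) + F)` (Weil) is the Čech `H¹` of the cover `{U₀, U₁}`.
Mathlib + Prelude + `Lib.RR` (`Ord`, `Approx`, `H653`) only.
-/

set_option autoImplicit false

noncomputable section

open AlgebraicCurve

namespace Fermat.Agent.S27.H267

variable {K F : Type*} [Field K] [Field F] [Algebra K F]

/-- `f ∈ O_v ↔ v(f) ≤ 1`. -/
theorem mem_iff_adicValuation_le_one (v : Place K F) (f : F) :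
    f ∈ v.toValuationSubring ↔ v.adicValuation f ≤ 1 := by
  rw [Fermat.Agent.Lib.RR.mem_iff_ord_nonneg, v.adicValuation_le_one_iff]
  constructor
  · exact fun h => Or.inr h
  · rintro (rfl | h)
    · simp
    · exact h

/-- `f ∉ O_v ↔ ord_v f < 0`. -/
theorem not_mem_iff_ord_neg (v : Place K F) (f : F) :
    f ∉ v.toValuationSubring ↔ v.ord f < 0 := by
  rw [Fermat.Agent.Lib.RR.mem_iff_ord_nonneg, not_le]

/-- A family is in `𝔸(0)` iff all its components are integral. -/
theorem mem_repartitionsOf_zero_iff {α : ↥(repartitions K F)} :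
    α ∈ repartitionsOf (0 : Divisor K F) ↔
      ∀ v : Place K F, (α : Place K F → F) v ∈ v.toValuationSubring := by
  show (∀ v : Place K F, v.adicValuation ((α : Place K F → F) v) ≤
    WithZero.exp ((0 : Divisor K F) v)) ↔ _
  refine forall_congr' fun v => ?_
  rw [mem_iff_adicValuation_le_one, Finsupp.zero_apply, WithZero.exp_zero]

/-- The repartitions are the families with finitely many poles, provided every function has
finitely many poles. -/
theorem mem_repartitions_iff_of_poles
    (hpoles : ∀ f : F, {v : Place K F | f ∉ v.toValuationSubring}.Finite)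
    {α : Place K F → F} :
    α ∈ repartitions K F ↔ {v : Place K F | α v ∉ v.toValuationSubring}.Finite := by
  have key : ∀ β : Place K F → F, {v : Place K F | β v ∉ v.toValuationSubring} =
      {v : Place K F | v.ord (β v) < 0} := fun β =>
    Set.ext fun v => not_mem_iff_ord_neg v (β v)
  rw [key]
  refine ⟨fun h => ?_, mem_repartitions_of_finite_ord⟩
  unfold repartitions at h
  induction h using Algebra.adjoin_induction with
  | mem x hx =>
    have hx' : {v : Place K F | ¬v.adicValuation (x v) ≤ 1}.Finite := hx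
    rwa [show {v : Place K F | ¬v.adicValuation (x v) ≤ 1}
        = {v : Place K F | v.ord (x v) < 0} from
      Set.ext fun v => v.not_adicValuation_le_one_iff] at hx'
  | algebraMap r =>
    have := hpoles r
    rw [key (fun _ => r)] at this
    exact this
  | add x y _ _ hx hy =>
    exact (hx.union hy).subset (Fermat.Agent.Lib.RR.H653.poles_add_subset x y)
  | mul x y _ _ hx hy =>
    exact (hx.union hy).subset (Fermat.Agent.Lib.RR.H653.poles_mul_subset x y)

open Classical in
/-- The repartition `f · 1_Z` for a finite set `Z` of places. -/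
def ind (Z : Set (Place K F)) (hZ : Z.Finite) (f : F) : ↥(repartitions K F) :=
  ⟨fun v => if v ∈ Z then f else 0,
    mem_repartitions_of_finite_ord <| hZ.subset fun v hv => by
      by_contra hvZ
      simp only [Set.mem_ofPred_eq, if_neg hvZ, Place.ord_zero, lt_self_iff_false] at hv⟩

theorem ind_apply_of_mem {Z : Set (Place K F)} (hZ : Z.Finite) (f : F) {v : Place K F}
    (hv : v ∈ Z) : (ind Z hZ f : Place K F → F) v = f := by
  classical
  exact if_pos hv

theorem ind_apply_of_not_mem {Z : Set (Place K F)} (hZ : Z.Finite) (f : F) {v : Place K F}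
    (hv : v ∉ Z) : (ind Z hZ f : Place K F → F) v = 0 := by
  classical
  exact if_neg hv

theorem ind_add {Z : Set (Place K F)} (hZ : Z.Finite) (f g : F) :
    ind Z hZ (f + g) = ind Z hZ f + ind Z hZ g := by
  apply Subtype.ext
  funext v
  by_cases hv : v ∈ Z
  · show (ind Z hZ (f + g) : Place K F → F) v =
      (ind Z hZ f : Place K F → F) v + (ind Z hZ g : Place K F → F) v
    rw [ind_apply_of_mem hZ _ hv, ind_apply_of_mem hZ _ hv, ind_apply_of_mem hZ _ hv]
  · show (ind Z hZ (f + g) : Place K F → F) v =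
      (ind Z hZ f : Place K F → F) v + (ind Z hZ g : Place K F → F) v
    rw [ind_apply_of_not_mem hZ _ hv, ind_apply_of_not_mem hZ _ hv,
      ind_apply_of_not_mem hZ _ hv, add_zero]

theorem ind_smul {Z : Set (Place K F)} (hZ : Z.Finite) (c : K) (f : F) :
    ind Z hZ (c • f) = c • ind Z hZ f := by
  apply Subtype.ext
  funext v
  by_cases hv : v ∈ Z
  · show (ind Z hZ (c • f) : Place K F → F) v = c • (ind Z hZ f : Place K F → F) v
    rw [ind_apply_of_mem hZ _ hv, ind_apply_of_mem hZ _ hv]
  · show (ind Z hZ (c • f) : Place K F → F) v = c • (ind Z hZ f : Place K F → F) v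
    rw [ind_apply_of_not_mem hZ _ hv, ind_apply_of_not_mem hZ _ hv, smul_zero]

/-- `f ↦ [f · 1_Z] ∈ H¹(0)`. -/
def psi (Z : Set (Place K F)) (hZ : Z.Finite) : F →ₗ[K] H1 (0 : Divisor K F) where
  toFun f := Submodule.Quotient.mk (ind Z hZ f)
  map_add' f g := by rw [ind_add, Submodule.Quotient.mk_add]
  map_smul' c f := by rw [ind_smul, Submodule.Quotient.mk_smul, RingHom.id_apply]

theorem psi_apply (Z : Set (Place K F)) (hZ : Z.Finite) (f : F) :
    psi Z hZ f = Submodule.Quotient.mk (ind Z hZ f) := rfl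

/-- A class in `H¹(0)` vanishes iff the family is integral up to a constant. -/
theorem mk_eq_zero_iff (α : ↥(repartitions K F)) :
    (Submodule.Quotient.mk α : H1 (0 : Divisor K F)) = 0 ↔
      ∃ h : F, ∀ v : Place K F, (α : Place K F → F) v - h ∈ v.toValuationSubring := by
  rw [Submodule.Quotient.mk_eq_zero, Submodule.mem_sup]
  constructor
  · rintro ⟨a, ha, p, hp, rfl⟩
    obtain ⟨h, hh⟩ := mem_principalRepartitions_iff.mp hp
    refine ⟨h, fun v => ?_⟩
    have : ((a + p : ↥(repartitions K F)) : Place K F → F) v =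
        (a : Place K F → F) v + (p : Place K F → F) v := rfl
    rw [this, hh, add_sub_cancel_right]
    exact mem_repartitionsOf_zero_iff.mp ha v
  · rintro ⟨h, hh⟩
    let p : ↥(repartitions K F) := algebraMap F ↥(repartitions K F) h
    have hp : p ∈ principalRepartitions K F :=
      mem_principalRepartitions_iff.mpr ⟨h, rfl⟩
    refine ⟨α - p, ?_, p, hp, sub_add_cancel α p⟩
    rw [mem_repartitionsOf_zero_iff]
    intro v
    exact hh v

section Cover

variable (U₀ U₁ : Set (Place K F))

/-- Kernel of `psi` on the functions regular on `U₀ ∩ U₁`. -/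
theorem psi_eq_zero_iff (hU : U₀ ∪ U₁ = Set.univ) (hZ : (U₀ᶜ).Finite) {f : F}
    (hf : ∀ v ∈ U₀ ∩ U₁, f ∈ v.toValuationSubring) :
    psi U₀ᶜ hZ f = 0 ↔
      ∃ a b : F, (∀ v ∈ U₀, a ∈ v.toValuationSubring) ∧
        (∀ v ∈ U₁, b ∈ v.toValuationSubring) ∧ f = a + b := by
  rw [psi_apply, mk_eq_zero_iff]
  constructor
  · rintro ⟨h, hh⟩
    have h0 : ∀ v ∈ U₀, h ∈ v.toValuationSubring := fun v hv => by
      have := hh v
      rw [ind_apply_of_not_mem hZ f (fun hc => hc hv), zero_sub] at this
      simpa using neg_mem this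
    refine ⟨h, f - h, h0, fun v hv => ?_, by ring⟩
    by_cases hv0 : v ∈ U₀
    · exact sub_mem (hf v ⟨hv0, hv⟩) (h0 v hv0)
    · have h1 := hh v
      rwa [ind_apply_of_mem hZ f hv0] at h1
  · rintro ⟨a, b, ha, hb, rfl⟩
    refine ⟨a, fun v => ?_⟩
    by_cases hv0 : v ∈ U₀
    · rw [ind_apply_of_not_mem hZ _ (fun hc => hc hv0), zero_sub]
      exact neg_mem (ha v hv0)
    · rw [ind_apply_of_mem hZ _ hv0, add_sub_cancel_left]
      have hv1 : v ∈ U₁ := by
        have : v ∈ U₀ ∪ U₁ := hU ▸ Set.mem_univ v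
        exact this.resolve_left hv0
      exact hb v hv1

/-- `psi` is onto `H¹(0)` already on the functions regular on `U₀ ∩ U₁`. -/
theorem psi_surjective (hU : U₀ ∪ U₁ = Set.univ) (hZ : (U₀ᶜ).Finite)
    (hpoles : ∀ f : F, {v : Place K F | f ∉ v.toValuationSubring}.Finite)
    (hpf₀ : ∀ α : Place K F → F, {v | v ∈ U₀ ∧ α v ∉ v.toValuationSubring}.Finite →
      ∃ h : F, ∀ v ∈ U₀, h - α v ∈ v.toValuationSubring)
    (hpf₁ : ∀ α : Place K F → F, {v | v ∈ U₁ ∧ α v ∉ v.toValuationSubring}.Finite →
      ∃ h : F, ∀ v ∈ U₁, h - α v ∈ v.toValuationSubring)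
    (ξ : H1 (0 : Divisor K F)) :
    ∃ g : F, (∀ v ∈ U₀ ∩ U₁, g ∈ v.toValuationSubring) ∧ psi U₀ᶜ hZ g = ξ := by
  classical
  obtain ⟨α, rfl⟩ := Submodule.Quotient.mk_surjective _ ξ
  have hα : {v : Place K F | (α : Place K F → F) v ∉ v.toValuationSubring}.Finite :=
    (mem_repartitions_iff_of_poles hpoles).mp α.2
  obtain ⟨h, hh⟩ := hpf₀ (α : Place K F → F) (hα.subset fun v hv => hv.2)
  obtain ⟨g, hg⟩ := hpf₁ (fun v => if v ∈ U₀ then 0 else (α : Place K F → F) v - h)
    (hZ.subset fun v hv => by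
      by_contra hv0
      have hv0' : v ∈ U₀ := not_not.mp hv0
      have := hv.2
      simp only [if_pos hv0'] at this
      exact this (zero_mem _))
  have hg01 : ∀ v ∈ U₀ ∩ U₁, g ∈ v.toValuationSubring := fun v hv => by
    have := hg v hv.2
    simpa only [if_pos hv.1, sub_zero] using this
  refine ⟨g, hg01, ?_⟩
  rw [psi_apply, eq_comm, ← sub_eq_zero, ← Submodule.Quotient.mk_sub, mk_eq_zero_iff]
  refine ⟨h, fun v => ?_⟩
  have hsub : ((α - ind U₀ᶜ hZ g : ↥(repartitions K F)) : Place K F → F) v =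
      (α : Place K F → F) v - (ind U₀ᶜ hZ g : Place K F → F) v := rfl
  rw [hsub]
  by_cases hv0 : v ∈ U₀
  · rw [ind_apply_of_not_mem hZ _ (fun hc => hc hv0), sub_zero]
    have := neg_mem (hh v hv0)
    rwa [neg_sub] at this
  · have hv1 : v ∈ U₁ := by
      have : v ∈ U₀ ∪ U₁ := hU ▸ Set.mem_univ v
      exact this.resolve_left hv0
    rw [ind_apply_of_mem hZ _ hv0]
    have := neg_mem (hg v hv1)
    simp only [if_neg hv0, neg_sub] at this
    have e : (α : Place K F → F) v - g - h = (α : Place K F → F) v - h - g := by ring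
    rw [e]
    exact this

end Cover

end Fermat.Agent.S27.H267
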