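import Fermat.Agent.S27.H267.GenusCore

/-!
# Row S27, leaf GENUS (helper267): places on an affine Dedekind chart

`R` a Dedekind domain, `j : R →ₐ[K] F` injective with `F = Frac (j R)`.
`chartPlaces j` = the places of `F/K` whose valuation ring contains `j R`.

* `chartPlaces_eq_range` : these are the places of the height-one primes of `R`;
* `mem_range_of_regular` : a function regular on `chartPlaces j` lies in `j R`;
* `finite_poles_chartPlaces` : a function has finitely many poles on the chart;
* `partialFractions` : partial fractions on the chart (Chinese remainder theorem).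

Mathlib + Prelude + `Lib.RR` (`Ord`, `Approx`) only.
-/

set_option autoImplicit false
set_option linter.style.haveILetI false
set_option linter.unusedSectionVars false

noncomputable section

open AlgebraicCurve IsDedekindDomain

namespace Fermat.Agent.S27.H267

variable {K F : Type*} [Field K] [Field F] [Algebra K F]

/-- The places of `F/K` whose valuation ring contains the image of `j`. -/
def chartPlaces {R : Type*} [CommRing R] (j : R →+* F) : Set (Place K F) :=
  {v | ∀ r : R, j r ∈ v.toValuationSubring}

section Inst

variable {R : Type*} [CommRing R] [IsDedekindDomain R] [Algebra K R] [Algebra R F]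
  [IsScalarTower K R F] [IsFractionRing R F]

theorem mem_ofHeightOneSpectrum_iff (w : HeightOneSpectrum R) (f : F) :
    f ∈ (Place.ofHeightOneSpectrum (K := K) w).toValuationSubring ↔ w.valuation F f ≤ 1 :=
  Valuation.mem_valuationSubring_iff _ _

theorem ofHeightOneSpectrum_mem_chartPlaces (w : HeightOneSpectrum R) :
    Place.ofHeightOneSpectrum (K := K) w ∈ chartPlaces (K := K) (algebraMap R F) := fun r =>
  (mem_ofHeightOneSpectrum_iff w _).mpr (w.valuation_le_one r)

theorem ofHeightOneSpectrum_injective :
    Function.Injective (Place.ofHeightOneSpectrum (K := K) (F := F) (R := R)) := by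
  intro w w' h
  have h' : (w.valuation F).valuationSubring = (w'.valuation F).valuationSubring :=
    congrArg Place.toValuationSubring h
  exact HeightOneSpectrum.eq_of_valuation_isEquiv_valuation
    ((Valuation.isEquiv_iff_valuationSubring _ _).mpr h')

/-- A place containing `R` is the place of a height-one prime of `R`. -/
theorem exists_ofHeightOneSpectrum_eq {v : Place K F}
    (hv : v ∈ chartPlaces (K := K) (algebraMap R F)) :
    ∃ w : HeightOneSpectrum R, Place.ofHeightOneSpectrum (K := K) w = v := by
  classical
  -- the centre of `v` on `R`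
  let φ : R →+* v.toValuationSubring :=
    (algebraMap R F).codRestrict v.toValuationSubring.toSubring hv
  let p : Ideal R := (IsLocalRing.maximalIdeal v.toValuationSubring).comap φ
  have hp : p.IsPrime := Ideal.comap_isPrime φ _
  have hunit : ∀ r : R, r ∉ p → (algebraMap R F r)⁻¹ ∈ v.toValuationSubring := by
    intro r hr
    have h1 : φ r ∉ IsLocalRing.maximalIdeal v.toValuationSubring := hr
    have h2 : IsUnit (φ r) := by
      by_contra hcon
      exact h1 ((IsLocalRing.mem_maximalIdeal _).mpr hcon)
    obtain ⟨u, hu⟩ := h2
    have h3 : ((u⁻¹ : (v.toValuationSubring)ˣ) : v.toValuationSubring) * φ r = 1 := by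
      rw [← hu]; exact u.inv_mul
    have h4 : (((u⁻¹ : (v.toValuationSubring)ˣ) : v.toValuationSubring) : F) *
        algebraMap R F r = 1 := by
      have h3' : (((u⁻¹ : (v.toValuationSubring)ˣ) : v.toValuationSubring) : F) *
          ((φ r : v.toValuationSubring) : F) = 1 := by
        have := congrArg (Subtype.val) h3
        simpa using this
      exact h3'
    have h5 : (algebraMap R F r)⁻¹ =
        (((u⁻¹ : (v.toValuationSubring)ˣ) : v.toValuationSubring) : F) :=
      (eq_inv_of_mul_eq_one_left h4).symm
    rw [h5]
    exact Subtype.mem _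
  have hp0 : p ≠ ⊥ := by
    intro hbot
    apply v.ne_top'
    refine SetLike.ext fun f => ⟨fun _ => ValuationSubring.mem_top f, fun _ => ?_⟩
    obtain ⟨a, b, hb, rfl⟩ := IsFractionRing.div_surjective (A := R) f
    have hb0 : b ≠ 0 := nonZeroDivisors.ne_zero hb
    have hbp : b ∉ p := by
      rw [hbot]
      exact fun h => hb0 ((Ideal.mem_bot).mp h)
    rw [div_eq_mul_inv]
    exact mul_mem (hv a) (hunit b hbp)
  let w : HeightOneSpectrum R := ⟨p, hp, hp0⟩
  refine ⟨w, Fermat.Agent.Lib.RR.place_eq_of_le ?_⟩
  show (w.valuation F).valuationSubring ≤ v.toValuationSubring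
  rw [← HeightOneSpectrum.valuationSubringAtPrime_eq_valuationSubring]
  intro f hf
  obtain ⟨a, s, hs, rfl⟩ := hf
  exact mul_mem (hv a) (hunit s hs)

theorem chartPlaces_eq_range :
    chartPlaces (K := K) (algebraMap R F) =
      Set.range (Place.ofHeightOneSpectrum (K := K) (F := F) (R := R)) := by
  ext v
  constructor
  · intro hv
    obtain ⟨w, hw⟩ := exists_ofHeightOneSpectrum_eq hv
    exact ⟨w, hw⟩
  · rintro ⟨w, rfl⟩
    exact ofHeightOneSpectrum_mem_chartPlaces w

/-- A function regular at all places of the chart lies in `R`. -/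
theorem mem_range_of_regular' {f : F}
    (hf : ∀ v ∈ chartPlaces (K := K) (algebraMap R F), f ∈ v.toValuationSubring) :
    f ∈ (algebraMap R F).range :=
  HeightOneSpectrum.mem_integers_of_valuation_le_one F f fun w =>
    (mem_ofHeightOneSpectrum_iff (K := K) w f).mp
      (hf _ (ofHeightOneSpectrum_mem_chartPlaces w))

/-- A function has finitely many poles on the chart. -/
theorem finite_poles_chartPlaces' (f : F) :
    {v : Place K F | v ∈ chartPlaces (K := K) (algebraMap R F) ∧
      f ∉ v.toValuationSubring}.Finite := by
  refine ((HeightOneSpectrum.Support.finite R f).image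
    (Place.ofHeightOneSpectrum (K := K) (F := F))).subset ?_
  rintro v ⟨hv, hfv⟩
  obtain ⟨w, rfl⟩ := exists_ofHeightOneSpectrum_eq hv
  refine ⟨w, ?_, rfl⟩
  show 1 < w.valuation F f
  rw [mem_ofHeightOneSpectrum_iff] at hfv
  exact not_le.mp hfv

/-- **Partial fractions** in a Dedekind domain: prescribed principal parts at finitely many
primes, integral elsewhere. -/
theorem exists_partialFraction (T : Finset (HeightOneSpectrum R))
    (β : HeightOneSpectrum R → F) :
    ∃ h : F, (∀ w ∈ T, w.valuation F (h - β w) ≤ 1) ∧ ∀ w ∉ T, w.valuation F h ≤ 1 := by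
  classical
  -- a common denominator
  obtain ⟨⟨d, hd⟩, hdβ⟩ :=
    IsLocalization.exist_integer_multiples_of_finset (nonZeroDivisors R) (T.image β)
  have hd0 : d ≠ 0 := nonZeroDivisors.ne_zero hd
  have hdF : algebraMap R F d ≠ 0 := by
    simpa using (IsFractionRing.injective R F).ne hd0
  have hnum : ∀ w ∈ T, ∃ a : R, algebraMap R F a = algebraMap R F d * β w := by
    intro w hw
    obtain ⟨a, ha⟩ := hdβ (β w) (Finset.mem_image_of_mem β hw)
    refine ⟨a, ?_⟩
    rw [ha, Algebra.smul_def]
  choose! a ha using hnum
  -- the primes dividing the denominator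
  have hfin : {w : HeightOneSpectrum R | w.valuation F (algebraMap R F d) < 1}.Finite := by
    simp_rw [HeightOneSpectrum.valuation_lt_one_iff_dvd]
    apply Ideal.finite_factors
    simpa only [Submodule.zero_eq_bot, ne_eq, Ideal.span_singleton_eq_bot]
  let T' : Finset (HeightOneSpectrum R) := T ∪ hfin.toFinset
  -- the exponents
  let e : HeightOneSpectrum R → ℕ := fun w => (-(WithZero.log (w.intValuation d))).toNat
  have he : ∀ w : HeightOneSpectrum R, w.intValuation d = WithZero.exp (-(e w : ℤ)) := by
    intro w
    have h0 : w.intValuation d ≠ 0 := w.intValuation_ne_zero d hd0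
    have h1 : WithZero.log (w.intValuation d) ≤ 0 := by
      rw [WithZero.log_le_iff_le_exp h0, WithZero.exp_zero]
      exact w.intValuation_le_one d
    have h2 : ((e w : ℕ) : ℤ) = -(WithZero.log (w.intValuation d)) :=
      Int.toNat_of_nonneg (by omega)
    rw [h2, neg_neg, WithZero.exp_log h0]
  obtain ⟨y, hy⟩ := IsDedekindDomain.exists_forall_sub_mem_ideal
    (s := T') (fun w : HeightOneSpectrum R => w.asIdeal) e
    (fun w _ => w.prime)
    (fun w _ w' _ hne h => hne (HeightOneSpectrum.ext h))
    (fun w => if (w : HeightOneSpectrum R) ∈ T then a w else 0)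
  have hval : ∀ (w : HeightOneSpectrum R) (z : R), w.intValuation z ≤ w.intValuation d →
      w.valuation F (algebraMap R F z / algebraMap R F d) ≤ 1 := by
    intro w z hz
    rw [map_div₀, HeightOneSpectrum.valuation_of_algebraMap,
      HeightOneSpectrum.valuation_of_algebraMap]
    exact div_le_one_of_le₀ hz zero_le
  refine ⟨algebraMap R F y / algebraMap R F d, fun w hw => ?_, fun w hw => ?_⟩
  · have hw' : w ∈ T' := Finset.mem_union_left _ hw
    have h1 := hy w hw'
    simp only [if_pos hw] at h1
    have h2 : algebraMap R F y / algebraMap R F d - β w =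
        algebraMap R F (y - a w) / algebraMap R F d := by
      rw [map_sub, ha w hw]
      field_simp
    rw [h2]
    apply hval
    rw [he w]
    exact (w.intValuation_le_pow_iff_mem _ _).mpr h1
  · by_cases hw' : w ∈ T'
    · have h1 := hy w hw'
      simp only [if_neg hw, sub_zero] at h1
      apply hval
      rw [he w]
      exact (w.intValuation_le_pow_iff_mem _ _).mpr h1
    · apply hval
      have h3 : ¬ w.valuation F (algebraMap R F d) < 1 := fun hlt =>
        hw' (Finset.mem_union_right _ (hfin.mem_toFinset.mpr hlt))
      rw [HeightOneSpectrum.valuation_of_algebraMap] at h3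
      have h4 : w.intValuation d = 1 :=
        le_antisymm (w.intValuation_le_one d) (not_lt.mp h3)
      rw [h4]
      exact w.intValuation_le_one y

/-- Partial fractions on the chart, in the form used by `psi_surjective`. -/
theorem partialFractions' (α : Place K F → F)
    (hα : {v : Place K F | v ∈ chartPlaces (K := K) (algebraMap R F) ∧
      α v ∉ v.toValuationSubring}.Finite) :
    ∃ h : F, ∀ v ∈ chartPlaces (K := K) (algebraMap R F), h - α v ∈ v.toValuationSubring := by
  classical
  have hT : {w : HeightOneSpectrum R |
      α (Place.ofHeightOneSpectrum (K := K) w) ∉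
        (Place.ofHeightOneSpectrum (K := K) (F := F) w).toValuationSubring}.Finite := by
    refine (hα.preimage (ofHeightOneSpectrum_injective (K := K) (F := F) (R := R)).injOn).subset
      ?_
    intro w hw
    exact ⟨ofHeightOneSpectrum_mem_chartPlaces w, hw⟩
  obtain ⟨h, h1, h2⟩ := exists_partialFraction hT.toFinset
    (fun w => α (Place.ofHeightOneSpectrum (K := K) w))
  refine ⟨h, fun v hv => ?_⟩
  obtain ⟨w, rfl⟩ := exists_ofHeightOneSpectrum_eq hv
  by_cases hw : w ∈ hT.toFinset
  · exact (mem_ofHeightOneSpectrum_iff w _).mpr (h1 w hw)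
  · have h3 := (mem_ofHeightOneSpectrum_iff (K := K) w _).mpr (h2 w hw)
    have h4 : α (Place.ofHeightOneSpectrum (K := K) w) ∈
        (Place.ofHeightOneSpectrum (K := K) (F := F) w).toValuationSubring := by
      by_contra hcon
      exact hw (hT.mem_toFinset.mpr hcon)
    exact sub_mem h3 h4

end Inst

/-! ## The same statements for an injective algebra map `j : R →ₐ[K] F` with `F = Frac (j R)` -/

section Hom

variable {R : Type*} [CommRing R] [IsDedekindDomain R] [Algebra K R]
  (j : R →ₐ[K] F) (hj : Function.Injective j)
  (hfrac : ∀ f : F, ∃ a b : R, j b ≠ 0 ∧ f * j b = j a)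

include hj hfrac

theorem isFractionRing_of_frac :
    letI : Algebra R F := j.toRingHom.toAlgebra
    IsFractionRing R F := by
  letI : Algebra R F := j.toRingHom.toAlgebra
  haveI : FaithfulSMul R F := (faithfulSMul_iff_algebraMap_injective R F).mpr hj
  refine IsFractionRing.of_field R F fun f => ?_
  obtain ⟨a, b, hb, hab⟩ := hfrac f
  exact ⟨a, b, (eq_div_iff hb).mpr hab⟩

theorem mem_range_of_regular {f : F}
    (hf : ∀ v ∈ chartPlaces (K := K) j.toRingHom, f ∈ v.toValuationSubring) :
    f ∈ Set.range j := by
  letI : Algebra R F := j.toRingHom.toAlgebra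
  haveI : IsScalarTower K R F := IsScalarTower.of_algebraMap_eq fun c => (j.commutes c).symm
  haveI : IsFractionRing R F := isFractionRing_of_frac j hj hfrac
  obtain ⟨r, hr⟩ := mem_range_of_regular' (K := K) (R := R) hf
  exact ⟨r, hr⟩

theorem finite_poles_chartPlaces (f : F) :
    {v : Place K F | v ∈ chartPlaces (K := K) j.toRingHom ∧
      f ∉ v.toValuationSubring}.Finite := by
  letI : Algebra R F := j.toRingHom.toAlgebra
  haveI : IsScalarTower K R F := IsScalarTower.of_algebraMap_eq fun c => (j.commutes c).symm
  haveI : IsFractionRing R F := isFractionRing_of_frac j hj hfrac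
  exact finite_poles_chartPlaces' (K := K) (R := R) f

theorem partialFractions (α : Place K F → F)
    (hα : {v : Place K F | v ∈ chartPlaces (K := K) j.toRingHom ∧
      α v ∉ v.toValuationSubring}.Finite) :
    ∃ h : F, ∀ v ∈ chartPlaces (K := K) j.toRingHom, h - α v ∈ v.toValuationSubring := by
  letI : Algebra R F := j.toRingHom.toAlgebra
  haveI : IsScalarTower K R F := IsScalarTower.of_algebraMap_eq fun c => (j.commutes c).symm
  haveI : IsFractionRing R F := isFractionRing_of_frac j hj hfrac
  exact partialFractions' (K := K) (R := R) α hα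

end Hom

end Fermat.Agent.S27.H267
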